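import Fermat.Agent.S59.H765.ResLocal
import Fermat.Agent.S59.Arch.SpecRT

/-!
# S59, cell NM, leaf NM-RES (helper765): instantiation at Wiles's levels

`N_Σ = wilesLevel p t Smin Σ` (board `coord/S59.md`).

* `wilesLevel_insert`      : `N_{Σ ∪ q} = N_Σ · q²` for `q ∉ Σ ⊇ Smin`;
* `prime_dvd_wilesLevel`   : the primes dividing `N_Σ` are in `Σ`;
* `levelPair_insert`       : `LevelPair N_Σ N_{Σ ∪ q} Σ (Σ ∪ q)`  (cell NM);
* `levelPair_flat_ord`     : `LevelPair N_Σ^{flat} N_Σ^{ord} Σ Σ`  (cell NMP);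
* `resFrobCond_comp`, `nonEisenstein_comp` : the residual character `θ' = θ ∘ oldRestrict` of the big
  level is again the Frobenius character of `ρ̄`;
* `nmRes_insert`, `nmRes_flat_ord` : **NM-RES**, `resLocal : T_{Σ'} ↠ T_Σ` is surjective.
-/

set_option autoImplicit false
set_option linter.unusedSectionVars false

noncomputable section

namespace Fermat.Agent.S59.H765

open CuspForm IsLocalRing Polynomial
open Fermat.Agent.S59.Arch Fermat.Agent.S59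

theorem wilesLevel_insert (p : ℕ) (t : PType) {Smin Sig : Finset ℕ} (hS : Smin ⊆ Sig)
    {q : ℕ} (hq : q ∉ Sig) :
    wilesLevel p t Smin (insert q Sig) = wilesLevel p t Smin Sig * q ^ 2 := by
  have hqm : q ∉ Smin := fun h => hq (hS h)
  have hq' : q ∉ Sig \ Smin := fun h => hq (Finset.mem_sdiff.mp h).1
  unfold wilesLevel
  rw [Finset.insert_sdiff_of_notMem _ hqm, Finset.prod_insert hq']
  ring

theorem prime_dvd_wilesLevel (p : ℕ) (t : PType) {Smin Sig : Finset ℕ} (hS : Smin ⊆ Sig)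
    (hSigP : ∀ q ∈ Sig, q.Prime) (hp : p ∈ Sig) {ℓ : ℕ} (hℓ : ℓ.Prime)
    (hd : ℓ ∣ wilesLevel p t Smin Sig) : ℓ ∈ Sig := by
  unfold wilesLevel at hd
  rcases (Nat.Prime.dvd_mul hℓ).mp hd with h12 | h3
  · rcases (Nat.Prime.dvd_mul hℓ).mp h12 with h1 | h2
    · obtain ⟨q, hq, hℓq⟩ := (Prime.dvd_finsetProd_iff hℓ.prime _).mp h1
      have hqS : q ∈ Sig := hS (Finset.mem_of_mem_erase hq)
      rw [(Nat.prime_dvd_prime_iff_eq hℓ (hSigP q hqS)).mp hℓq]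
      exact hqS
    · obtain ⟨q, hq, hℓq⟩ := (Prime.dvd_finsetProd_iff hℓ.prime _).mp h2
      have hqS : q ∈ Sig := (Finset.mem_sdiff.mp hq).1
      rw [(Nat.prime_dvd_prime_iff_eq hℓ (hSigP q hqS)).mp (hℓ.dvd_of_dvd_pow hℓq)]
      exact hqS
  · have hℓp : ℓ ∣ p := by
      cases t
      · exact absurd (Nat.dvd_one.mp h3) hℓ.ne_one
      · exact h3
      · exact h3
    rw [(Nat.prime_dvd_prime_iff_eq hℓ (hSigP p hp)).mp hℓp]
    exact hp

/-- The pair of levels of the cell NM. -/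
theorem levelPair_insert (p : ℕ) (t : PType) {Smin Sig : Finset ℕ} (hS : Smin ⊆ Sig)
    (hSigP : ∀ q ∈ Sig, q.Prime) (hp : p ∈ Sig) {q : ℕ} (hq : q.Prime) (hqS : q ∉ Sig) :
    LevelPair (wilesLevel p t Smin Sig) (wilesLevel p t Smin (insert q Sig))
      (↑Sig : Set ℕ) (↑(insert q Sig) : Set ℕ) where
  dvd := ⟨q ^ 2, wilesLevel_insert p t hS hqS⟩
  sub := by
    intro x hx
    exact Finset.mem_coe.mpr (Finset.mem_insert_of_mem (Finset.mem_coe.mp hx))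
  hU := by
    intro ℓ hℓ hd hℓS
    refine absurd (Finset.mem_coe.mpr ?_) hℓS
    refine prime_dvd_wilesLevel p t (hS.trans (Finset.subset_insert q Sig)) ?_
      (Finset.mem_insert_of_mem hp) hℓ hd
    intro x hx
    rcases Finset.mem_insert.mp hx with rfl | hx
    · exact hq
    · exact hSigP x hx

/-- The pair of levels of the cell NMP. -/
theorem levelPair_flat_ord (p : ℕ) {Smin Sig : Finset ℕ} (hS : Smin ⊆ Sig)
    (hSigP : ∀ q ∈ Sig, q.Prime) (hp : p ∈ Sig) :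
    LevelPair (wilesLevel p .flat Smin Sig) (wilesLevel p .ord Smin Sig)
      (↑Sig : Set ℕ) (↑Sig : Set ℕ) where
  dvd := ⟨p, by unfold wilesLevel; rw [mul_one]⟩
  sub := subset_rfl
  hU := by
    intro ℓ hℓ hd hℓS
    exact absurd (Finset.mem_coe.mpr (prime_dvd_wilesLevel p .ord hS hSigP hp hℓ hd)) hℓS

section Residual

variable {N N' : ℕ} [NeZero N] [NeZero N'] {S S' : Set ℕ} (hp : LevelPair N N' S S')

theorem resFrobCond_comp {k : Type} [Field k] {ρbar : ResidualGaloisRep k}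
    {θ : heckeAlgebra N 2 S →+* k} (h : G4.ResFrobCond ρbar θ) :
    G4.ResFrobCond ρbar (θ.comp (oldRestrict hp)) := by
  intro ℓ hℓ hℓN' hℓS' B hB σ hσ
  have hℓN : ¬ ℓ ∣ N := fun hd => hℓN' (hd.trans hp.dvd)
  have hℓS : ℓ ∉ S := fun hs => hℓS' (hp.sub hs)
  rw [RingHom.comp_apply, oldRestrict_T hp hℓ hℓN' hℓS' hℓN hℓS]
  exact h ℓ hℓ hℓN hℓS B hB σ hσ

theorem nonEisenstein_comp {k : Type} [Field k] {θ : heckeAlgebra N 2 S →+* k}
    (h : G4.NonEisenstein θ) : G4.NonEisenstein (θ.comp (oldRestrict hp)) := by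
  obtain ⟨ρbar, habs, hfrob⟩ := h
  exact ⟨ρbar, habs, resFrobCond_comp hp hfrob⟩

end Residual

section Main

variable (p : ℕ) (𝒪 : Type) [CommRing 𝒪] [IsDomain 𝒪] [IsDiscreteValuationRing 𝒪]
  [IsAdicComplete (maximalIdeal 𝒪) 𝒪]

/-- **NM-RES** (cell NM): `T_{Σ ∪ q} ↠ T_Σ`. -/
theorem nmRes_insert (t : PType) {Smin Sig : Finset ℕ} (hS : Smin ⊆ Sig)
    (hSigP : ∀ q ∈ Sig, q.Prime) (hpS : p ∈ Sig) {q : ℕ} (hq : q.Prime) (hqS : q ∉ Sig)
    [NeZero (wilesLevel p t Smin Sig)] [NeZero (wilesLevel p t Smin (insert q Sig))]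
    [Fact (HasIntegralStructure (wilesLevel p t Smin Sig) 2)]
    [Fact (HasIntegralStructure (wilesLevel p t Smin (insert q Sig)) 2)]
    (θ : heckeAlgebra (wilesLevel p t Smin Sig) 2 (↑Sig : Set ℕ) →+* ResidueField 𝒪)
    (H : HeckeGaloisRepDatum (wilesLevel p t Smin Sig) (↑Sig : Set ℕ) 𝒪 θ
      (heckeLocal (wilesLevel p t Smin Sig) (↑Sig : Set ℕ) 𝒪 θ))
    (hH : H.π = heckeLocal.π (wilesLevel p t Smin Sig) (↑Sig : Set ℕ) 𝒪 θ) :
    Function.Surjective (resLocal (levelPair_insert p t hS hSigP hpS hq hqS) 𝒪 θ) :=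
  resLocal_surjective_of_datum _ 𝒪 θ
    (fun _ hℓ hd => prime_dvd_wilesLevel p t hS hSigP hpS hℓ hd) H hH

/-- **NM-RES** (cell NMP): `T_Σ^{ord} ↠ T_Σ^{flat}`. -/
theorem nmRes_flat_ord {Smin Sig : Finset ℕ} (hS : Smin ⊆ Sig)
    (hSigP : ∀ q ∈ Sig, q.Prime) (hpS : p ∈ Sig)
    [NeZero (wilesLevel p .flat Smin Sig)] [NeZero (wilesLevel p .ord Smin Sig)]
    [Fact (HasIntegralStructure (wilesLevel p .flat Smin Sig) 2)]
    [Fact (HasIntegralStructure (wilesLevel p .ord Smin Sig) 2)]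
    (θ : heckeAlgebra (wilesLevel p .flat Smin Sig) 2 (↑Sig : Set ℕ) →+* ResidueField 𝒪)
    (H : HeckeGaloisRepDatum (wilesLevel p .flat Smin Sig) (↑Sig : Set ℕ) 𝒪 θ
      (heckeLocal (wilesLevel p .flat Smin Sig) (↑Sig : Set ℕ) 𝒪 θ))
    (hH : H.π = heckeLocal.π (wilesLevel p .flat Smin Sig) (↑Sig : Set ℕ) 𝒪 θ) :
    Function.Surjective (resLocal (levelPair_flat_ord p hS hSigP hpS) 𝒪 θ) :=
  resLocal_surjective_of_datum _ 𝒪 θ
    (fun _ hℓ hd => prime_dvd_wilesLevel p .flat hS hSigP hpS hℓ hd) H hH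

end Main

end Fermat.Agent.S59.H765
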