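import Fermat.Agent.Lib.Newform.H863.OldForms
import Fermat.Prelude.Def_CuspForm_HeckeAlgebra

/-!
# S59, cell NM, leaf NM-RES, part 1 (helper765): restriction of Hecke operators to oldforms

For levels `N ∣ N'` and sets of primes `S ⊆ S'` such that every prime `q ∣ N'`, `q ∉ S'` divides
`N` (`LevelPair`), every element of the Prelude Hecke algebra `heckeAlgebra N' 2 S'` preserves the
image of `levelIncl : S₂(Γ₀(N)) → S₂(Γ₀(N'))`, and restriction is a ring homomorphism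

  `oldRestrict : heckeAlgebra N' 2 S' →+* heckeAlgebra N 2 S`,  `T_ℓ ↦ T_ℓ`, `U_q ↦ U_q`.

Construction: the graph subalgebra generated by the pairs of generators.
-/

set_option autoImplicit false
set_option linter.unusedSectionVars false

noncomputable section

namespace Fermat.Agent.S59.H765

open CuspForm CongruenceSubgroup
open Fermat.Agent.Lib.Newform.H863

/-- Two levels `N ∣ N'` and two sets of primes `S ⊆ S'`; the primes dividing the big level and
not in `S'` divide the small level. -/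
structure LevelPair (N N' : ℕ) (S S' : Set ℕ) : Prop where
  dvd : N ∣ N'
  sub : S ⊆ S'
  hU : ∀ q : ℕ, q.Prime → q ∣ N' → q ∉ S' → q ∣ N

/-- Endomorphisms of the space of weight 2 cusp forms of level `N`. -/
abbrev EndCF (N : ℕ) : Type := Module.End ℂ (CuspForm (Gamma0 N) 2)

variable {N N' : ℕ} [NeZero N] [NeZero N'] {S S' : Set ℕ}

/-- The pairs `(t', t)` commuting with the level inclusion. -/
def compatAlg (h : N ∣ N') : Subalgebra ℤ (EndCF N' × EndCF N) where
  carrier := {x | ∀ f, x.1 (levelIncl h f) = levelIncl h (x.2 f)}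
  mul_mem' := by
    intro a b ha hb f
    change a.1 (b.1 (levelIncl h f)) = levelIncl h (a.2 (b.2 f))
    rw [hb f, ha (b.2 f)]
  one_mem' := fun f => rfl
  add_mem' := by
    intro a b ha hb f
    change a.1 (levelIncl h f) + b.1 (levelIncl h f) = levelIncl h (a.2 f + b.2 f)
    rw [ha f, hb f, map_add]
  zero_mem' := fun f => by
    change (0 : CuspForm (Gamma0 N') 2) = levelIncl h 0
    rw [map_zero]
  algebraMap_mem' := by
    intro n f
    change (algebraMap ℤ (EndCF N') n) (levelIncl h f) = levelIncl h ((algebraMap ℤ (EndCF N) n) f)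
    rw [Module.algebraMap_end_apply, Module.algebraMap_end_apply, map_zsmul]

theorem mem_compatAlg {h : N ∣ N'} {x : EndCF N' × EndCF N} :
    x ∈ compatAlg h ↔ ∀ f, x.1 (levelIncl h f) = levelIncl h (x.2 f) := Iff.rfl

variable (N N' S')

/-- The pairs of generators. -/
def genPairs : Set (EndCF N' × EndCF N) :=
  {x | ∃ (ℓ : ℕ) (hℓ : ℓ.Prime) (hℓN' : ¬ ℓ ∣ N') (hℓN : ¬ ℓ ∣ N), ℓ ∉ S' ∧
      x = (heckeTLin 2 hℓ hℓN', heckeTLin 2 hℓ hℓN)} ∪
    {x | ∃ (q : ℕ) (hqN' : q ∣ N') (hqN : q ∣ N), q.Prime ∧ q ∉ S' ∧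
      x = (heckeULin 2 hqN', heckeULin 2 hqN)}

/-- The graph of the restriction. -/
def graphAlg : Subalgebra ℤ (EndCF N' × EndCF N) :=
  Algebra.adjoin ℤ (genPairs N N' S')

variable {N N' S'}

theorem graphAlg_le_compat (h : N ∣ N') : graphAlg N N' S' ≤ compatAlg h := by
  refine Algebra.adjoin_le ?_
  rintro x (⟨ℓ, hℓ, hℓN', hℓN, -, rfl⟩ | ⟨q, hqN', hqN, -, -, rfl⟩)
  · intro f
    exact heckeTLin_levelIncl h hℓ hℓN' f
  · intro f
    exact heckeULin_levelIncl h hqN f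

theorem graphAlg_le_prod (hS : S ⊆ S') :
    graphAlg N N' S' ≤ (heckeAlgebra N' 2 S').prod (heckeAlgebra N 2 S) := by
  refine Algebra.adjoin_le ?_
  rintro x (⟨ℓ, hℓ, hℓN', hℓN, hℓS', rfl⟩ | ⟨q, hqN', hqN, hq, hqS', rfl⟩)
  · exact ⟨heckeTLin_mem_heckeAlgebra hℓ hℓN' hℓS',
      heckeTLin_mem_heckeAlgebra hℓ hℓN fun hS0 => hℓS' (hS hS0)⟩
  · exact ⟨heckeULin_mem_heckeAlgebra hq hqN' hqS',
      heckeULin_mem_heckeAlgebra hq hqN fun hS0 => hqS' (hS hS0)⟩

theorem fst_image_genPairs (hp : LevelPair N N' S S') :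
    Prod.fst '' genPairs N N' S' = heckeGenerators N' 2 S' := by
  ext t
  constructor
  · rintro ⟨x, (⟨ℓ, hℓ, hℓN', hℓN, hℓS', rfl⟩ | ⟨q, hqN', hqN, hq, hqS', rfl⟩), rfl⟩
    · exact heckeTLin_mem_heckeGenerators hℓ hℓN' hℓS'
    · exact heckeULin_mem_heckeGenerators hq hqN' hqS'
  · rintro (⟨ℓ, hℓ, hℓN', hℓS', rfl⟩ | ⟨q, hqN', hq, hqS', rfl⟩)
    · exact ⟨(heckeTLin 2 hℓ hℓN', heckeTLin 2 hℓ fun hd => hℓN' (hd.trans hp.dvd)),
        Or.inl ⟨ℓ, hℓ, hℓN', _, hℓS', rfl⟩, rfl⟩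
    · exact ⟨(heckeULin 2 hqN', heckeULin 2 (hp.hU q hq hqN' hqS')),
        Or.inr ⟨q, hqN', _, hq, hqS', rfl⟩, rfl⟩

theorem map_fst_graphAlg (hp : LevelPair N N' S S') :
    (graphAlg N N' S').map (AlgHom.fst ℤ (EndCF N') (EndCF N)) = heckeAlgebra N' 2 S' := by
  rw [graphAlg, AlgHom.map_adjoin, heckeAlgebra]
  congr 1
  exact fst_image_genPairs hp

/-- Every Hecke operator of the big level has a partner. -/
theorem exists_pair (hp : LevelPair N N' S S') (t : heckeAlgebra N' 2 S') :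
    ∃ s : EndCF N, ((t : EndCF N'), s) ∈ graphAlg N N' S' := by
  have ht : (t : EndCF N') ∈ (graphAlg N N' S').map (AlgHom.fst ℤ (EndCF N') (EndCF N)) := by
    rw [map_fst_graphAlg hp]
    exact t.2
  obtain ⟨x, hx, hxt⟩ := ht
  refine ⟨x.2, ?_⟩
  have : x = ((t : EndCF N'), x.2) := Prod.ext hxt rfl
  rw [← this]
  exact hx

/-- The partner is unique. -/
theorem pair_unique (h : N ∣ N') {t : EndCF N'} {s s' : EndCF N}
    (hs : (t, s) ∈ graphAlg N N' S') (hs' : (t, s') ∈ graphAlg N N' S') : s = s' := by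
  refine LinearMap.ext fun f => levelIncl_injective h ?_
  rw [← graphAlg_le_compat h hs f, ← graphAlg_le_compat h hs' f]

/-- Restriction to oldforms, as a function. -/
def oldRestrictFun (hp : LevelPair N N' S S') (t : heckeAlgebra N' 2 S') : heckeAlgebra N 2 S :=
  ⟨(exists_pair hp t).choose, (graphAlg_le_prod hp.sub (exists_pair hp t).choose_spec).2⟩

theorem oldRestrictFun_mem (hp : LevelPair N N' S S') (t : heckeAlgebra N' 2 S') :
    ((t : EndCF N'), (oldRestrictFun hp t : EndCF N)) ∈ graphAlg N N' S' :=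
  (exists_pair hp t).choose_spec

theorem oldRestrictFun_eq (hp : LevelPair N N' S S') (t : heckeAlgebra N' 2 S')
    (s : heckeAlgebra N 2 S) (hs : ((t : EndCF N'), (s : EndCF N)) ∈ graphAlg N N' S') :
    oldRestrictFun hp t = s :=
  Subtype.ext (pair_unique hp.dvd (oldRestrictFun_mem hp t) hs)

/-- **Restriction of Hecke operators to the oldforms of level `N`.** -/
def oldRestrict (hp : LevelPair N N' S S') : heckeAlgebra N' 2 S' →+* heckeAlgebra N 2 S where
  toFun := oldRestrictFun hp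
  map_one' := oldRestrictFun_eq hp 1 1 (Subalgebra.one_mem _)
  map_mul' a b := oldRestrictFun_eq hp (a * b) (oldRestrictFun hp a * oldRestrictFun hp b)
    (Subalgebra.mul_mem _ (oldRestrictFun_mem hp a) (oldRestrictFun_mem hp b))
  map_zero' := oldRestrictFun_eq hp 0 0 (Subalgebra.zero_mem _)
  map_add' a b := oldRestrictFun_eq hp (a + b) (oldRestrictFun hp a + oldRestrictFun hp b)
    (Subalgebra.add_mem _ (oldRestrictFun_mem hp a) (oldRestrictFun_mem hp b))

theorem oldRestrict_mem (hp : LevelPair N N' S S') (t : heckeAlgebra N' 2 S') :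
    ((t : EndCF N'), (oldRestrict hp t : EndCF N)) ∈ graphAlg N N' S' :=
  oldRestrictFun_mem hp t

/-- The defining property: `t ∘ incl = incl ∘ oldRestrict t`. -/
theorem levelIncl_oldRestrict (hp : LevelPair N N' S S') (t : heckeAlgebra N' 2 S')
    (f : CuspForm (Gamma0 N) 2) :
    (t : EndCF N') (levelIncl hp.dvd f) = levelIncl hp.dvd ((oldRestrict hp t : EndCF N) f) :=
  graphAlg_le_compat hp.dvd (oldRestrict_mem hp t) f

theorem oldRestrict_T (hp : LevelPair N N' S S') {ℓ : ℕ} (hℓ : ℓ.Prime) (hℓN' : ¬ ℓ ∣ N')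
    (hℓS' : ℓ ∉ S') (hℓN : ¬ ℓ ∣ N) (hℓS : ℓ ∉ S) :
    oldRestrict hp (heckeAlgebra.T hℓ hℓN' hℓS') = heckeAlgebra.T hℓ hℓN hℓS :=
  oldRestrictFun_eq hp _ _ (Algebra.subset_adjoin (Or.inl ⟨ℓ, hℓ, hℓN', hℓN, hℓS', rfl⟩))

theorem oldRestrict_U (hp : LevelPair N N' S S') {q : ℕ} (hq : q.Prime) (hqN' : q ∣ N')
    (hqS' : q ∉ S') (hqN : q ∣ N) (hqS : q ∉ S) :
    oldRestrict hp (heckeAlgebra.U hq hqN' hqS') = heckeAlgebra.U hq hqN hqS :=
  oldRestrictFun_eq hp _ _ (Algebra.subset_adjoin (Or.inr ⟨q, hqN', hqN, hq, hqS', rfl⟩))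

end Fermat.Agent.S59.H765
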