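import Mathlib
import Fermat.Prelude.Def_GaloisRep_Adic
import Fermat.Agent.Lib.Cheb.Chebotarev

/-!
# S59, cell NM, leaf NM-RES, part 2 (helper765): traces of Frobenius fill a closed subalgebra

`trace_mem_of_frob`: let `T` be a local ring, finite over a Noetherian local ring `𝒪`, `ρ` a
`GaloisRepAdic T` and `A ⊆ T` an `𝒪`-submodule containing the traces of `ρ` at the Frobenius
elements of all primes outside a finite set.  Then `A` contains the trace of `ρ σ` for every
`σ ∈ Gal(ℚ̄/ℚ)`  (Chebotarev + adic continuity + Krull's intersection theorem).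
-/

set_option autoImplicit false
set_option linter.unusedSectionVars false
set_option linter.style.haveILetI false

namespace Fermat.Agent.S59.H765

open IsLocalRing
open Fermat.Agent.Lib.Cheb.Spec (Qb GQ)

section LinAlg

variable {A : Type*} [CommRing A] {V : Type*} [AddCommGroup V] [Module A V]

theorem repr_mem_of_mem_smul_top (I : Ideal A) {ι : Type*} (b : Module.Basis ι A V) {x : V}
    (hx : x ∈ I • (⊤ : Submodule A V)) (i : ι) : b.repr x i ∈ I := by
  refine Submodule.smul_induction_on (p := fun x => b.repr x i ∈ I) hx ?_ ?_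
  · intro a ha w _
    rw [map_smul, Finsupp.smul_apply, smul_eq_mul]
    exact I.mul_mem_right _ ha
  · intro x y hx hy
    rw [map_add, Finsupp.add_apply]
    exact I.add_mem hx hy

theorem map_mem_smul_top (I : Ideal A) (f : Module.End A V) {x : V}
    (hx : x ∈ I • (⊤ : Submodule A V)) : f x ∈ I • (⊤ : Submodule A V) := by
  refine Submodule.smul_induction_on (p := fun x => f x ∈ I • (⊤ : Submodule A V)) hx ?_ ?_
  · intro a ha w _
    rw [map_smul]
    exact Submodule.smul_mem_smul ha Submodule.mem_top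
  · intro x y hx hy
    rw [map_add]
    exact Submodule.add_mem _ hx hy

theorem trace_mem_of_forall_mem_smul_top [Module.Free A V] [Module.Finite A V] (I : Ideal A)
    (f : Module.End A V) (hf : ∀ v, f v ∈ I • (⊤ : Submodule A V)) :
    LinearMap.trace A V f ∈ I := by
  classical
  rw [LinearMap.trace_eq_matrix_trace A (Module.Free.chooseBasis A V) f, Matrix.trace]
  refine I.sum_mem fun i _ => ?_
  rw [Matrix.diag_apply, LinearMap.toMatrix_apply]
  exact repr_mem_of_mem_smul_top I _ (hf _) i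

end LinAlg

section Cont

variable {T : Type} [CommRing T] [IsLocalRing T]

/-- Finite-level congruence of the traces. -/
theorem exists_level_trace_sub_mem (ρ : GaloisRepAdic T) (n : ℕ) :
    ∃ L : IntermediateField ℚ Qb, FiniteDimensional ℚ L ∧
      ∀ σ τ : GQ, (∀ x ∈ L, τ x = σ x) → ρ.trace τ - ρ.trace σ ∈ maximalIdeal T ^ n := by
  obtain ⟨L, hL, h1⟩ := ρ.isAdicContinuous n
  refine ⟨L, hL, fun σ τ hτ => ?_⟩
  have hδ : ∀ x ∈ L, (σ⁻¹ * τ) x = x := by
    intro x hx
    rw [AlgEquiv.mul_apply, hτ x hx, AlgEquiv.aut_inv, AlgEquiv.symm_apply_apply]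
  have hτeq : τ = σ * (σ⁻¹ * τ) := by rw [mul_inv_cancel_left]
  have h2 : ρ.ρ τ - ρ.ρ σ = ρ.ρ σ * (ρ.ρ (σ⁻¹ * τ) - 1) := by
    rw [mul_sub, mul_one, ← map_mul, ← hτeq]
  rw [GaloisRepAdic.trace, GaloisRepAdic.trace, ← map_sub, h2]
  refine trace_mem_of_forall_mem_smul_top _ _ fun v => ?_
  rw [Module.End.mul_apply, LinearMap.sub_apply, Module.End.one_apply]
  exact map_mem_smul_top _ _ (h1 _ hδ v)

end Cont

section Closed

variable {𝒪 T : Type*} [CommRing 𝒪] [IsLocalRing 𝒪] [IsNoetherianRing 𝒪] [CommRing T]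
  [IsLocalRing T] [Algebra 𝒪 T] [Module.Finite 𝒪 T]

theorem exists_maximalIdeal_pow_le_map765 :
    ∃ e, maximalIdeal T ^ e ≤ (maximalIdeal 𝒪).map (algebraMap 𝒪 T) := by
  letI : Field (𝒪 ⧸ maximalIdeal 𝒪) := Ideal.Quotient.field _
  haveI : Module.Finite (𝒪 ⧸ maximalIdeal 𝒪) (T ⧸ (maximalIdeal 𝒪).map (algebraMap 𝒪 T)) :=
    Module.Finite.of_restrictScalars_finite 𝒪 _ _
  haveI : IsArtinianRing (T ⧸ (maximalIdeal 𝒪).map (algebraMap 𝒪 T)) :=
    IsArtinianRing.of_finite (𝒪 ⧸ maximalIdeal 𝒪) _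
  exact exists_maximalIdeal_pow_le_of_isArtinianRing_quotient _

/-- An `𝒪`-submodule of `T` is closed for the `𝔪_T`-adic topology. -/
theorem mem_of_forall_exists_sub_mem (A : Submodule 𝒪 T) (x : T)
    (hx : ∀ n : ℕ, ∃ a ∈ A, x - a ∈ maximalIdeal T ^ n) : x ∈ A := by
  obtain ⟨e, he⟩ := exists_maximalIdeal_pow_le_map765 (𝒪 := 𝒪) (T := T)
  have hkey : A.mkQ x ∈ (⨅ i : ℕ, maximalIdeal 𝒪 ^ i • ⊤ : Submodule 𝒪 (T ⧸ A)) := by
    rw [Submodule.mem_iInf]
    intro n
    obtain ⟨a, ha, hxa⟩ := hx (e * n)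
    have h1 : x - a ∈ ((maximalIdeal 𝒪 ^ n).map (algebraMap 𝒪 T)) := by
      rw [Ideal.map_pow]
      rw [pow_mul] at hxa
      exact Ideal.pow_right_mono he n hxa
    have h2 : x - a ∈ (maximalIdeal 𝒪 ^ n • ⊤ : Submodule 𝒪 T) := by
      rw [Ideal.smul_top_eq_map]
      exact h1
    have h0 : A.mkQ a = 0 := (Submodule.Quotient.mk_eq_zero A).mpr ha
    have h3 : A.mkQ x = A.mkQ (x - a) := by
      rw [map_sub, h0, sub_zero]
    rw [h3]
    refine Submodule.smul_induction_on
      (p := fun y => A.mkQ y ∈ (maximalIdeal 𝒪 ^ n • ⊤ : Submodule 𝒪 (T ⧸ A))) h2 ?_ ?_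
    · intro c hc w _
      rw [map_smul]
      exact Submodule.smul_mem_smul hc Submodule.mem_top
    · intro y z hy hz
      rw [map_add]
      exact Submodule.add_mem _ hy hz
  rw [Ideal.iInf_pow_smul_eq_bot_of_isLocalRing (maximalIdeal 𝒪)
    (Ideal.IsMaximal.ne_top inferInstance), Submodule.mem_bot] at hkey
  exact (Submodule.Quotient.mk_eq_zero A).mp hkey

end Closed

section Main

variable {𝒪 : Type*} [CommRing 𝒪] [IsLocalRing 𝒪] [IsNoetherianRing 𝒪]
  {T : Type} [CommRing T] [IsLocalRing T] [Algebra 𝒪 T] [Module.Finite 𝒪 T]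

/-- **Traces of Frobenius fill a closed subspace.** -/
theorem trace_mem_of_frob (ρ : GaloisRepAdic T) (A : Submodule 𝒪 T) (F : Finset ℕ)
    (h : ∀ ℓ : ℕ, ℓ.Prime → ℓ ∉ F → ∀ B : ValuationSubring Qb, B.LiesOverPrime ℓ →
      ∀ σ : GQ, B.IsFrobeniusAt σ ℓ → ρ.trace σ ∈ A) (σ : GQ) : ρ.trace σ ∈ A := by
  refine mem_of_forall_exists_sub_mem A _ fun n => ?_
  obtain ⟨L, hL, hcong⟩ := exists_level_trace_sub_mem ρ n
  obtain ⟨ℓ, B, τ, hℓ, hℓF, hB, hτ, -, hτσ⟩ := Fermat.Agent.Lib.Cheb.chebotarev L hL σ F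
  refine ⟨ρ.trace τ, h ℓ hℓ hℓF B hB τ hτ, ?_⟩
  have := hcong σ τ hτσ
  rw [← neg_sub]
  exact Ideal.neg_mem_iff _ |>.mpr this

/-- The trace from a characteristic polynomial `X² - t X + d` in rank `2`. -/
theorem trace_eq_of_charpoly {A : Type*} [CommRing A] [Nontrivial A] {V : Type*} [AddCommGroup V]
    [Module A V] [Module.Free A V] [Module.Finite A V] (hV : Module.finrank A V = 2)
    (f : Module.End A V) (t d : A)
    (hf : LinearMap.charpoly f = Polynomial.X ^ 2 - Polynomial.C t * Polynomial.X + Polynomial.C d) :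
    LinearMap.trace A V f = t := by
  classical
  have hcard : Fintype.card (Module.Free.ChooseBasisIndex A V) = 2 := by
    rw [← Module.finrank_eq_card_chooseBasisIndex, hV]
  haveI : Nonempty (Module.Free.ChooseBasisIndex A V) := by
    rw [← Fintype.card_pos_iff, hcard]; norm_num
  rw [LinearMap.trace_eq_matrix_trace A (Module.Free.chooseBasis A V) f,
    Matrix.trace_eq_neg_charpoly_coeff, hcard,
    LinearMap.charpoly_toMatrix f (Module.Free.chooseBasis A V), hf]
  simp [Polynomial.coeff_X, Polynomial.coeff_C]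

end Main

end Fermat.Agent.S59.H765
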