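import Fermat.Agent.S59.H765.OldRestrict
import Fermat.Agent.S59.H765.TraceClosed
import Fermat.Agent.S59.H7.HeckeLocalCore
import Fermat.Agent.S54.FrobExists

/-!
# S59, cell NM, leaf NM-RES (helper765): `T_{Σ'} ↠ T_Σ`

For a `LevelPair N N' S S'` (`N ∣ N'`, `S ⊆ S'`, no `U`-operator of the big level at a prime not
dividing the small level) and a residual character `θ` of `heckeAlgebra N 2 S`, put
`θ' := θ ∘ oldRestrict`.  Then restriction to oldforms induces an `𝒪`-algebra homomorphism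

  `resLocal : heckeLocal N' S' 𝒪 θ' →ₐ[𝒪] heckeLocal N S 𝒪 θ`,  `π' t ↦ π (oldRestrict t)`,

(`resLocal_π`, `resLocal_T`), and `resLocal` is SURJECTIVE as soon as `heckeLocal N S 𝒪 θ` carries a
Galois representation with the Hecke characteristic polynomials at the Frobenius elements
(`resLocal_surjective`, `resLocal_surjective_of_datum`): the image is a closed subalgebra
containing the traces of almost all Frobenius elements, hence (Chebotarev) all traces, hence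
`T_ℓ` for ALL `ℓ ∉ S`.
-/

set_option autoImplicit false
set_option synthInstance.maxHeartbeats 400000
set_option maxHeartbeats 1000000
set_option linter.unusedSectionVars false

noncomputable section

namespace Fermat.Agent.S59.H765

open CuspForm IsLocalRing
open scoped TensorProduct
open Fermat.Agent.S59.H7

variable {N N' : ℕ} [NeZero N] [NeZero N'] {S S' : Set ℕ}
variable (hp : LevelPair N N' S S')
variable (𝒪 : Type) [CommRing 𝒪] [IsDomain 𝒪] [IsDiscreteValuationRing 𝒪]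
  [IsAdicComplete (IsLocalRing.maximalIdeal 𝒪) 𝒪]
variable (θ : heckeAlgebra N 2 S →+* IsLocalRing.ResidueField 𝒪)
variable [Fact (HasIntegralStructure N 2)] [Fact (HasIntegralStructure N' 2)]

/-- `id ⊗ oldRestrict`. -/
def tensorRestrict :
    (𝒪 ⊗[ℤ] ↥(heckeAlgebra N' 2 S')) →ₐ[𝒪] (𝒪 ⊗[ℤ] ↥(heckeAlgebra N 2 S)) :=
  Algebra.TensorProduct.map (AlgHom.id 𝒪 𝒪) (oldRestrict hp).toIntAlgHom

theorem tensorRestrict_tmul (a : 𝒪) (t : ↥(heckeAlgebra N' 2 S')) :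
    tensorRestrict hp 𝒪 (a ⊗ₜ[ℤ] t) = a ⊗ₜ[ℤ] oldRestrict hp t := rfl

theorem residualCharacter_tensorRestrict (x : 𝒪 ⊗[ℤ] ↥(heckeAlgebra N' 2 S')) :
    residualCharacter N S 𝒪 θ (tensorRestrict hp 𝒪 x) =
      residualCharacter N' S' 𝒪 (θ.comp (oldRestrict hp)) x := by
  induction x using TensorProduct.induction_on with
  | zero => rw [map_zero, map_zero, map_zero]
  | tmul a t => rw [tensorRestrict_tmul, residualCharacter_tmul, residualCharacter_tmul]; rfl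
  | add x y hx hy => rw [map_add, map_add, map_add, hx, hy]

/-- The restriction on the base algebras `𝒪 ⊗ heckeLatticeAlgebra`. -/
def baseRestrict : heckeBaseAlgebra N' S' 𝒪 →+* heckeBaseAlgebra N S 𝒪 :=
  (latticeBaseChange N S 𝒪).comp
    ((tensorRestrict hp 𝒪).toRingHom.comp (latticeBaseChangeEquiv N' S' 𝒪).symm.toRingHom)

theorem baseRestrict_latticeBaseChange (x : 𝒪 ⊗[ℤ] ↥(heckeAlgebra N' 2 S')) :
    baseRestrict hp 𝒪 (latticeBaseChange N' S' 𝒪 x) =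
      latticeBaseChange N S 𝒪 (tensorRestrict hp 𝒪 x) := by
  change latticeBaseChange N S 𝒪 (tensorRestrict hp 𝒪
    ((latticeBaseChangeEquiv N' S' 𝒪).symm (latticeBaseChange N' S' 𝒪 x))) = _
  rw [latticeBaseChangeEquiv_symm_apply]

theorem isUnit_baseRestrict (y : heckeLocalSubmonoid N' S' 𝒪 (θ.comp (oldRestrict hp))) :
    IsUnit ((algebraMap (heckeBaseAlgebra N S 𝒪) (heckeLocal N S 𝒪 θ)).comp
      (baseRestrict hp 𝒪) y) := by
  obtain ⟨y, a, ha, rfl⟩ := y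
  change IsUnit (algebraMap (heckeBaseAlgebra N S 𝒪) (heckeLocal N S 𝒪 θ)
    (baseRestrict hp 𝒪 (latticeBaseChange N' S' 𝒪 a)))
  rw [baseRestrict_latticeBaseChange]
  have hmem : latticeBaseChange N S 𝒪 (tensorRestrict hp 𝒪 a) ∈ heckeLocalSubmonoid N S 𝒪 θ := by
    refine ⟨tensorRestrict hp 𝒪 a, ?_, rfl⟩
    refine Ideal.mem_primeCompl_iff.mpr fun hmem => Ideal.mem_primeCompl_iff.mp ha ?_
    rw [mem_heckeCharKernel_iff] at hmem ⊢
    rw [← residualCharacter_tensorRestrict]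
    exact hmem
  exact IsLocalization.map_units (heckeLocal N S 𝒪 θ)
    (⟨_, hmem⟩ : heckeLocalSubmonoid N S 𝒪 θ)

/-- The restriction `T_{Σ'} → T_Σ` as a ring homomorphism. -/
def resLocalRing : heckeLocal N' S' 𝒪 (θ.comp (oldRestrict hp)) →+* heckeLocal N S 𝒪 θ :=
  IsLocalization.lift (M := heckeLocalSubmonoid N' S' 𝒪 (θ.comp (oldRestrict hp)))
    (S := heckeLocal N' S' 𝒪 (θ.comp (oldRestrict hp)))
    (g := (algebraMap (heckeBaseAlgebra N S 𝒪) (heckeLocal N S 𝒪 θ)).comp (baseRestrict hp 𝒪))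
    (isUnit_baseRestrict hp 𝒪 θ)

theorem resLocalRing_algebraMap (b : heckeBaseAlgebra N' S' 𝒪) :
    resLocalRing hp 𝒪 θ (algebraMap (heckeBaseAlgebra N' S' 𝒪)
      (heckeLocal N' S' 𝒪 (θ.comp (oldRestrict hp))) b) =
      algebraMap (heckeBaseAlgebra N S 𝒪) (heckeLocal N S 𝒪 θ) (baseRestrict hp 𝒪 b) :=
  IsLocalization.lift_eq _ b

/-- **The restriction `T_{Σ'} → T_Σ`** (`𝒪`-algebra homomorphism). -/
def resLocal : heckeLocal N' S' 𝒪 (θ.comp (oldRestrict hp)) →ₐ[𝒪] heckeLocal N S 𝒪 θ :=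
  { resLocalRing hp 𝒪 θ with
    commutes' := fun a => by
      change resLocalRing hp 𝒪 θ (algebraMap 𝒪 (heckeLocal N' S' 𝒪 (θ.comp (oldRestrict hp))) a) =
        algebraMap 𝒪 (heckeLocal N S 𝒪 θ) a
      rw [algebraMap_eq, resLocalRing_algebraMap, baseRestrict_latticeBaseChange,
        AlgHom.commutes, algebraMap_eq] }

/-- `resLocal (π' t) = π (oldRestrict t)`. -/
theorem resLocal_π (t : ↥(heckeAlgebra N' 2 S')) :
    resLocal hp 𝒪 θ (heckeLocal.π N' S' 𝒪 (θ.comp (oldRestrict hp)) t) =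
      heckeLocal.π N S 𝒪 θ (oldRestrict hp t) := by
  change resLocalRing hp 𝒪 θ (heckeLocal.π N' S' 𝒪 (θ.comp (oldRestrict hp)) t) = _
  rw [π_eq, resLocalRing_algebraMap, baseRestrict_latticeBaseChange, tensorRestrict_tmul, π_eq]

/-- `resLocal (π' T_ℓ) = π T_ℓ`. -/
theorem resLocal_T {ℓ : ℕ} (hℓ : ℓ.Prime) (hℓN' : ¬ ℓ ∣ N') (hℓS' : ℓ ∉ S') (hℓN : ¬ ℓ ∣ N)
    (hℓS : ℓ ∉ S) :
    resLocal hp 𝒪 θ (heckeLocal.π N' S' 𝒪 (θ.comp (oldRestrict hp))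
        (heckeAlgebra.T hℓ hℓN' hℓS')) =
      heckeLocal.π N S 𝒪 θ (heckeAlgebra.T hℓ hℓN hℓS) := by
  rw [resLocal_π, oldRestrict_T hp hℓ hℓN' hℓS' hℓN hℓS]

/-- The residual character of the big level on the generators. -/
theorem comp_oldRestrict_T {ℓ : ℕ} (hℓ : ℓ.Prime) (hℓN' : ¬ ℓ ∣ N') (hℓS' : ℓ ∉ S')
    (hℓN : ¬ ℓ ∣ N) (hℓS : ℓ ∉ S) :
    (θ.comp (oldRestrict hp)) (heckeAlgebra.T hℓ hℓN' hℓS') = θ (heckeAlgebra.T hℓ hℓN hℓS) := by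
  rw [RingHom.comp_apply, oldRestrict_T hp hℓ hℓN' hℓS' hℓN hℓS]

end Fermat.Agent.S59.H765

namespace Fermat.Agent.S59.H765

open CuspForm IsLocalRing Polynomial
open scoped TensorProduct
open Fermat.Agent.S59.H7

section Surj

variable {N N' : ℕ} [NeZero N] [NeZero N'] {S S' : Finset ℕ}
variable (hp : LevelPair N N' (↑S : Set ℕ) (↑S' : Set ℕ))
variable (𝒪 : Type) [CommRing 𝒪] [IsDomain 𝒪] [IsDiscreteValuationRing 𝒪]
  [IsAdicComplete (IsLocalRing.maximalIdeal 𝒪) 𝒪]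
variable (θ : heckeAlgebra N 2 (↑S : Set ℕ) →+* IsLocalRing.ResidueField 𝒪)
variable [Fact (HasIntegralStructure N 2)] [Fact (HasIntegralStructure N' 2)]

/-- **NM-RES, surjectivity.**  If all primes of `N` are in `S` and `T_Σ = heckeLocal N S 𝒪 θ`
carries a Galois representation with the Hecke characteristic polynomials at Frobenius, then
`resLocal : T_{Σ'} → T_Σ` is surjective (`S'` finite). -/
theorem resLocal_surjective (hNS : ∀ q : ℕ, q.Prime → q ∣ N → q ∈ S)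
    (ρ : GaloisRepAdic (heckeLocal N (↑S : Set ℕ) 𝒪 θ))
    (hfrob : ∀ (ℓ : ℕ) (hℓ : ℓ.Prime) (hℓN : ¬ ℓ ∣ N) (hℓS : ℓ ∉ (↑S : Set ℕ)),
      ∀ A : ValuationSubring (AlgebraicClosure ℚ), A.LiesOverPrime ℓ →
        ∀ σ : AlgebraicClosure ℚ ≃ₐ[ℚ] AlgebraicClosure ℚ, A.IsFrobeniusAt σ ℓ →
          LinearMap.charpoly (ρ.ρ σ) =
            X ^ 2 - C (heckeLocal.π N (↑S : Set ℕ) 𝒪 θ (heckeAlgebra.T hℓ hℓN hℓS)) * X +
              C ((ℓ : heckeLocal N (↑S : Set ℕ) 𝒪 θ))) :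
    Function.Surjective (resLocal hp 𝒪 θ) := by
  classical
  set A : Subalgebra 𝒪 (heckeLocal N (↑S : Set ℕ) 𝒪 θ) := (resLocal hp 𝒪 θ).range with hA
  have htrace : ∀ (ℓ : ℕ) (hℓ : ℓ.Prime) (hℓN : ¬ ℓ ∣ N) (hℓS : ℓ ∉ (↑S : Set ℕ)),
      ∀ B : ValuationSubring (AlgebraicClosure ℚ), B.LiesOverPrime ℓ →
        ∀ σ : AlgebraicClosure ℚ ≃ₐ[ℚ] AlgebraicClosure ℚ, B.IsFrobeniusAt σ ℓ →
          ρ.trace σ = heckeLocal.π N (↑S : Set ℕ) 𝒪 θ (heckeAlgebra.T hℓ hℓN hℓS) :=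
    fun ℓ hℓ hℓN hℓS B hB σ hσ =>
      trace_eq_of_charpoly ρ.finrank_eq _ _ _ (hfrob ℓ hℓ hℓN hℓS B hB σ hσ)
  have hF : ∀ ℓ : ℕ, ℓ.Prime → ℓ ∉ S' ∪ N'.primeFactors →
      ∀ B : ValuationSubring (AlgebraicClosure ℚ), B.LiesOverPrime ℓ →
        ∀ σ : AlgebraicClosure ℚ ≃ₐ[ℚ] AlgebraicClosure ℚ, B.IsFrobeniusAt σ ℓ →
          ρ.trace σ ∈ Subalgebra.toSubmodule A := by
    intro ℓ hℓ hℓF B hB σ hσ
    have hℓS' : ℓ ∉ (↑S' : Set ℕ) := fun h => hℓF (Finset.mem_union_left _ h)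
    have hℓN' : ¬ ℓ ∣ N' := fun h =>
      hℓF (Finset.mem_union_right _ (Nat.mem_primeFactors.mpr ⟨hℓ, h, NeZero.ne N'⟩))
    have hℓN : ¬ ℓ ∣ N := fun h => hℓN' (h.trans hp.dvd)
    have hℓS : ℓ ∉ (↑S : Set ℕ) := fun h => hℓS' (hp.sub h)
    rw [htrace ℓ hℓ hℓN hℓS B hB σ hσ, ← resLocal_T hp 𝒪 θ hℓ hℓN' hℓS' hℓN hℓS]
    exact ⟨_, rfl⟩
  have hall := trace_mem_of_frob ρ (Subalgebra.toSubmodule A) (S' ∪ N'.primeFactors) hF
  have hπ : ∀ (x : Module.End ℂ (CuspForm (CongruenceSubgroup.Gamma0 N) 2))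
      (hx : x ∈ Algebra.adjoin ℤ (heckeGenerators N 2 (↑S : Set ℕ))),
      heckeLocal.π N (↑S : Set ℕ) 𝒪 θ ⟨x, hx⟩ ∈ A := by
    intro x hx
    refine Algebra.adjoin_induction
      (p := fun x hx => heckeLocal.π N (↑S : Set ℕ) 𝒪 θ ⟨x, hx⟩ ∈ A) ?_ ?_ ?_ ?_ hx
    · rintro x (⟨ℓ, hℓ, hℓN, hℓS, rfl⟩ | ⟨q, hqN, hq, hqS, rfl⟩)
      · obtain ⟨B, σ, hB, hσ⟩ := Fermat.Agent.S54.exists_frobenius ℓ hℓ
        have h1 := hall σ
        rw [htrace ℓ hℓ hℓN hℓS B hB σ hσ] at h1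
        exact h1
      · exact absurd (hNS q hq hqN) hqS
    · intro r
      have h1 : (⟨algebraMap ℤ _ r, Subalgebra.algebraMap_mem _ r⟩ :
          ↥(heckeAlgebra N 2 (↑S : Set ℕ))) = ((r : ℤ) : ↥(heckeAlgebra N 2 (↑S : Set ℕ))) :=
        Subtype.ext (by simp)
      change heckeLocal.π N (↑S : Set ℕ) 𝒪 θ (⟨algebraMap ℤ _ r, Subalgebra.algebraMap_mem _ r⟩ :
          ↥(heckeAlgebra N 2 (↑S : Set ℕ))) ∈ A
      rw [h1, map_intCast]
      exact intCast_mem A r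
    · intro x y hx hy hpx hpy
      have h1 : (⟨x + y, Subalgebra.add_mem _ hx hy⟩ : ↥(heckeAlgebra N 2 (↑S : Set ℕ))) =
          (⟨x, hx⟩ : ↥(heckeAlgebra N 2 (↑S : Set ℕ))) + ⟨y, hy⟩ := rfl
      change heckeLocal.π N (↑S : Set ℕ) 𝒪 θ (⟨x + y, Subalgebra.add_mem _ hx hy⟩ :
          ↥(heckeAlgebra N 2 (↑S : Set ℕ))) ∈ A
      rw [h1, map_add]
      exact A.add_mem hpx hpy
    · intro x y hx hy hpx hpy
      have h1 : (⟨x * y, Subalgebra.mul_mem _ hx hy⟩ : ↥(heckeAlgebra N 2 (↑S : Set ℕ))) =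
          (⟨x, hx⟩ : ↥(heckeAlgebra N 2 (↑S : Set ℕ))) * ⟨y, hy⟩ := rfl
      change heckeLocal.π N (↑S : Set ℕ) 𝒪 θ (⟨x * y, Subalgebra.mul_mem _ hx hy⟩ :
          ↥(heckeAlgebra N 2 (↑S : Set ℕ))) ∈ A
      rw [h1, map_mul]
      exact A.mul_mem hpx hpy
  have htop : A = ⊤ := by
    rw [eq_top_iff, ← adjoin_range_π N (↑S : Set ℕ) 𝒪 θ]
    refine Algebra.adjoin_le ?_
    rintro _ ⟨⟨t, ht⟩, rfl⟩
    exact hπ t ht
  intro z
  have hz : z ∈ A := by rw [htop]; exact Algebra.mem_top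
  exact hz

/-- **NM-RES** in the form used by the cell: from a Hecke–Galois datum on `T_Σ` with the
Prelude `π`. -/
theorem resLocal_surjective_of_datum (hNS : ∀ q : ℕ, q.Prime → q ∣ N → q ∈ S)
    (H : HeckeGaloisRepDatum N (↑S : Set ℕ) 𝒪 θ (heckeLocal N (↑S : Set ℕ) 𝒪 θ))
    (hH : H.π = heckeLocal.π N (↑S : Set ℕ) 𝒪 θ) :
    Function.Surjective (resLocal hp 𝒪 θ) := by
  refine resLocal_surjective hp 𝒪 θ hNS H.ρ ?_
  intro ℓ hℓ hℓN hℓS B hB σ hσ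
  rw [← hH]
  exact H.charpoly_frob ℓ hℓ hℓN hℓS B hB σ hσ

end Surj

end Fermat.Agent.S59.H765
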